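import Mathlib.FieldTheory.IsAlgClosed.AlgebraicClosure
import Mathlib.GroupTheory.OrderOfElement
import Mathlib.FieldTheory.Finite.Basic
import Mathlib.Data.Nat.Factorization.Defs
import Mathlib.Data.Rat.Lemmas
import Mathlib.RingTheory.Int.Basic
import Mathlib.Tactic.NormNum.Prime
import Mathlib.Tactic.LinearCombination

/-!
# A cubic surface without rational point

`N` is the norm form of the cubic field of `θ³ - 7 θ² + 14 θ - 7`, inside the seventh cyclotomic
field. A prime not `± 1` modulo `7` and other than `7` divides `N x y z` only with `x, y, z`, so it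
divides no factor of a primitive solution of `t (t + x) (t + 2 x) = N x y z`; the factors are then
`0` or `± 1` modulo `7`, which only allows all four numbers to be divisible by `7`.
-/

set_option autoImplicit false
set_option linter.style.haveILetI false

namespace FA.SurfaceObstructions

variable {R : Type*} [CommRing R]

/-- The norm of `x + y θ + z θ²`. -/
def cubicNorm (x y z : R) : R :=
  x ^ 3 + 7 * x ^ 2 * y + 21 * x ^ 2 * z + 14 * x * y ^ 2 + 77 * x * y * z + 98 * x * z ^ 2 +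
    7 * y ^ 3 + 49 * y ^ 2 * z + 98 * y * z ^ 2 + 49 * z ^ 3

/-- The surface `t (t + x) (t + 2 x) = N x y z`. -/
def OnCubic (t x y z : R) : Prop := t * (t + x) * (t + 2 * x) = cubicNorm x y z

theorem map_cubicNorm {S : Type*} [CommRing S] (g : R →+* S) (x y z : R) :
    g (cubicNorm x y z) = cubicNorm (g x) (g y) (g z) := by
  simp [cubicNorm, map_ofNat]

/-- **The form splits into three conjugate linear forms.** -/
theorem cubicNorm_split {a : R} (ha : a ^ 3 - 7 * a ^ 2 + 14 * a - 7 = 0) (x y z : R) :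
    let b := 4 * a - a ^ 2
    let c := 7 - a - b
    cubicNorm x y z =
      (x + y * a + z * a ^ 2) * (x + y * b + z * b ^ 2) * (x + y * c + z * c ^ 2) := by
  intro b c
  have e₁ : a + b + c = 7 := by simp only [c]; ring
  have e₂ : a * b + a * c + b * c = 14 := by
    simp only [b, c]; linear_combination (-a + 2) * ha
  have e₃ : a * b * c = 7 := by
    simp only [b, c]; linear_combination (-a ^ 2 + 2 * a + 1) * ha
  have key : (x + y * a + z * a ^ 2) * (x + y * b + z * b ^ 2) * (x + y * c + z * c ^ 2) =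
      x ^ 3 + x ^ 2 * y * (a + b + c) +
        x ^ 2 * z * ((a + b + c) ^ 2 - 2 * (a * b + a * c + b * c)) +
        x * y ^ 2 * (a * b + a * c + b * c) +
        x * y * z * ((a + b + c) * (a * b + a * c + b * c) - 3 * (a * b * c)) +
        x * z ^ 2 * ((a * b + a * c + b * c) ^ 2 - 2 * (a + b + c) * (a * b * c)) +
        y ^ 3 * (a * b * c) + y ^ 2 * z * ((a * b * c) * (a + b + c)) +
        y * z ^ 2 * ((a * b * c) * (a * b + a * c + b * c)) + z ^ 3 * (a * b * c) ^ 2 := by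
    ring
  rw [key, e₁, e₂, e₃, cubicNorm]
  ring

/-- A prime `≢ 0, ± 1 (mod 7)`. -/
def IsInertSeven (q : ℕ) : Prop :=
  q.Prime ∧ (q % 7 = 2 ∨ q % 7 = 3 ∨ q % 7 = 4 ∨ q % 7 = 5)

/-- The cubic has no root modulo an inert prime. -/
theorem no_root {q : ℕ} [Fact q.Prime] (hq : IsInertSeven q) (a : ZMod q) :
    a ^ 3 - 7 * a ^ 2 + 14 * a - 7 ≠ 0 := by
  intro ha
  let L := AlgebraicClosure (ZMod q)
  haveI : CharP L q := charP_of_injective_algebraMap (algebraMap (ZMod q) L).injective q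
  set s : L := algebraMap (ZMod q) L (2 - a) with hs
  have hg : s ^ 3 + s ^ 2 - 2 * s - 1 = 0 := by
    have h := congrArg (algebraMap (ZMod q) L)
      (show (2 - a) ^ 3 + (2 - a) ^ 2 - 2 * (2 - a) - 1 = 0 by linear_combination -ha)
    simpa [hs, map_ofNat] using h
  obtain ⟨ζ, hζ⟩ : ∃ ζ : L, ζ ^ 2 - s * ζ + 1 = 0 := by
    obtain ⟨ζ, hζ⟩ := IsAlgClosed.exists_root
      (Polynomial.X ^ 2 - Polynomial.C s * Polynomial.X + 1 : Polynomial L)
      (by
        have : (Polynomial.X ^ 2 - Polynomial.C s * Polynomial.X + 1 : Polynomial L).degree = 2 := by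
          compute_degree!
        rw [this]; decide)
    exact ⟨ζ, by simpa using hζ⟩
  have hζ0 : ζ ≠ 0 := fun e => by simp [e] at hζ
  have hinv : ζ * (s - ζ) = 1 := by linear_combination -hζ
  have hseven : ζ ^ 7 = 1 := by
    have : (ζ ^ 6 + ζ ^ 5 + ζ ^ 4 + ζ ^ 3 + ζ ^ 2 + ζ + 1) = 0 := by
      have e : s * ζ = ζ ^ 2 + 1 := by linear_combination -hζ
      calc ζ ^ 6 + ζ ^ 5 + ζ ^ 4 + ζ ^ 3 + ζ ^ 2 + ζ + 1
          = (ζ ^ 2 + 1) ^ 3 + (ζ ^ 2 + 1) ^ 2 * ζ - 2 * (ζ ^ 2 + 1) * ζ ^ 2 - ζ ^ 3 := by ring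
        _ = (s ^ 3 + s ^ 2 - 2 * s - 1) * ζ ^ 3 := by rw [← e]; ring
        _ = 0 := by rw [hg, zero_mul]
    linear_combination (ζ - 1) * this
  have h70 : (7 : L) ≠ 0 := fun e => by
    have : ((7 : ℕ) : L) = 0 := by simpa using e
    rw [CharP.cast_eq_zero_iff L q] at this
    have := (Nat.prime_dvd_prime_iff_eq hq.1 (by norm_num)).1 this
    rcases hq.2 with h | h | h | h <;> omega
  have hone : ζ ≠ 1 := fun e => h70 (by
    have e2 : s = 2 := by rw [e] at hζ; linear_combination -hζ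
    rw [e2] at hg
    linear_combination hg)
  haveI : Fact (Nat.Prime 7) := ⟨by norm_num⟩
  have hord : orderOf ζ = 7 := orderOf_eq_prime hseven hone
  have hsq : s ^ q = s := by rw [hs, ← map_pow, ZMod.pow_card]
  have hroot : (ζ ^ q) ^ 2 - s * ζ ^ q + 1 = 0 := by
    have h := congrArg (frobenius L q) hζ
    simp only [map_add, map_sub, map_mul, map_one, map_zero, frobenius_def, hsq] at h
    rwa [← pow_mul, mul_comm q 2, pow_mul] at *
  have hfac : (ζ ^ q - ζ) * (ζ ^ q + ζ - s) = 0 := by linear_combination hroot - hζ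
  rcases mul_eq_zero.1 hfac with e | e
  · have h1 : ζ ^ (q - 1) = 1 := by
      refine mul_right_cancel₀ hζ0 ?_
      rw [← pow_succ, Nat.sub_add_cancel hq.1.one_le, one_mul]
      linear_combination e
    have h7 := orderOf_dvd_of_pow_eq_one h1
    rw [hord] at h7
    have := hq.1.one_le
    rcases hq.2 with h | h | h | h <;> omega
  · have h1 : ζ ^ (q + 1) = 1 := by
      rw [pow_succ]
      linear_combination ζ * e + hinv
    have h7 := orderOf_dvd_of_pow_eq_one h1
    rw [hord] at h7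
    rcases hq.2 with h | h | h | h <;> omega

/-- **An inert prime divides the norm only with all three coordinates.** -/
theorem cubicNorm_eq_zero {q : ℕ} [Fact q.Prime] (hq : IsInertSeven q) {x y z : ZMod q}
    (h : cubicNorm x y z = 0) : x = 0 ∧ y = 0 ∧ z = 0 := by
  have hlin : ∀ {a b : ZMod q}, cubicNorm a b 0 = 0 → a = 0 ∧ b = 0 := fun {a b} e => by
    by_cases hb : b = 0
    · subst hb
      exact ⟨(pow_eq_zero_iff three_ne_zero).1 (by rw [← e, cubicNorm]; ring), rfl⟩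
    · exfalso
      refine no_root hq (-a / b) ?_
      have : b ^ 3 * ((-a / b) ^ 3 - 7 * (-a / b) ^ 2 + 14 * (-a / b) - 7) = 0 := by
        field_simp
        rw [cubicNorm] at e
        linear_combination -e
      exact (mul_eq_zero.1 this).resolve_left (pow_ne_zero 3 hb)
  by_cases hz : z = 0
  · subst hz; exact ⟨(hlin h).1, (hlin h).2, rfl⟩
  exfalso
  have hmul : cubicNorm (7 * z ^ 2 - (y + 7 * z) * x) (x * z - 14 * z ^ 2 - (y + 7 * z) * y) 0 =
      cubicNorm x y z * cubicNorm (-(y + 7 * z)) z 0 := by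
    simp only [cubicNorm]; ring
  rw [h, zero_mul] at hmul
  obtain ⟨h0, h1⟩ := hlin hmul
  refine no_root hq ((y + 7 * z) / z) ?_
  have : z ^ 3 * (((y + 7 * z) / z) ^ 3 - 7 * ((y + 7 * z) / z) ^ 2 + 14 * ((y + 7 * z) / z) - 7) =
      0 := by
    field_simp
    linear_combination -z * h0 - (y + 7 * z) * h1
  exact (mul_eq_zero.1 this).resolve_left (pow_ne_zero 3 hz)

theorem cubic_dvd_all {q : ℕ} (hq : IsInertSeven q) {t x y z : ℤ} (h : OnCubic t x y z)
    (hd : (q : ℤ) ∣ t ∨ (q : ℤ) ∣ t + x ∨ (q : ℤ) ∣ t + 2 * x) :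
    (q : ℤ) ∣ t ∧ (q : ℤ) ∣ x ∧ (q : ℤ) ∣ y ∧ (q : ℤ) ∣ z := by
  haveI : Fact q.Prime := ⟨hq.1⟩
  have h' := congrArg (Int.castRingHom (ZMod q)) h
  rw [map_cubicNorm] at h'
  simp only [map_mul, map_add, map_ofNat, eq_intCast] at h'
  simp only [← ZMod.intCast_zmod_eq_zero_iff_dvd, Int.cast_add, Int.cast_mul, Int.cast_ofNat] at hd ⊢
  have h0 : (t : ZMod q) * (t + x) * (t + 2 * x) = 0 := by
    rcases hd with e | e | e <;> rw [e] <;> ring
  obtain ⟨hx, hy, hz⟩ := cubicNorm_eq_zero hq (h'.symm.trans h0)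
  refine ⟨?_, hx, hy, hz⟩
  rw [hx] at hd
  simpa using hd

theorem seven_residue_mul : ∀ a b : ZMod 7, (a = 0 ∨ a = 1 ∨ a = -1) → (b = 0 ∨ b = 1 ∨ b = -1) →
    (a * b = 0 ∨ a * b = 1 ∨ a * b = -1) := by decide

theorem seven_table : ∀ t x : ZMod 7, (t = 0 ∨ t = 1 ∨ t = -1) →
    (t + x = 0 ∨ t + x = 1 ∨ t + x = -1) → (t + 2 * x = 0 ∨ t + 2 * x = 1 ∨ t + 2 * x = -1) →
    t * (t + x) * (t + 2 * x) = x ^ 3 → t = 0 ∧ x = 0 := by decide

theorem seven_prime_residue : ∀ a : ZMod 7, a.val ≠ 2 → a.val ≠ 3 → a.val ≠ 4 → a.val ≠ 5 →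
    (a = 0 ∨ a = 1 ∨ a = -1) := by decide

/-- A nonzero integer without inert prime divisor is `0` or `± 1` modulo `7`. -/
theorem residue_seven {n : ℤ} (hn : n ≠ 0) (h : ∀ q, IsInertSeven q → ¬(q : ℤ) ∣ n) :
    (n : ZMod 7) = 0 ∨ (n : ZMod 7) = 1 ∨ (n : ZMod 7) = -1 := by
  let P : ℕ → Prop := fun m => (m : ZMod 7) = 0 ∨ (m : ZMod 7) = 1 ∨ (m : ZMod 7) = -1
  have hN : n.natAbs ≠ 0 := Int.natAbs_ne_zero.2 hn
  have key : P (n.natAbs.factorization.prod (· ^ ·)) := by
    refine Finset.prod_induction _ P (fun a b ha hb => ?_) (Or.inr (Or.inl Nat.cast_one)) ?_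
    · simp only [P, Nat.cast_mul]; exact seven_residue_mul _ _ ha hb
    intro q hq
    have hmem : q ∈ n.natAbs.primeFactors := Nat.support_factorization _ ▸ hq
    have hprime := Nat.prime_of_mem_primeFactors hmem
    have hni : ¬IsInertSeven q := fun hi =>
      h q hi (Int.natCast_dvd.2 (Nat.dvd_of_mem_primeFactors hmem))
    simp only [P, Nat.cast_pow]
    induction n.natAbs.factorization q with
    | zero => exact Or.inr (Or.inl (pow_zero _))
    | succ e he =>
      rw [pow_succ]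
      refine seven_residue_mul _ _ he (seven_prime_residue _ ?_ ?_ ?_ ?_) <;>
        rw [ZMod.val_natCast] <;> intro e' <;> exact hni ⟨hprime, by omega⟩
  rw [Nat.prod_factorization_pow_eq_self hN] at key
  have he := Int.natAbs_eq n
  simp only [P] at key
  generalize n.natAbs = m at he key
  rcases he with rfl | rfl
  · simpa using key
  · rcases key with k | k | k <;> simp [k]

/-- **Only the trivial integral solution.** -/
theorem cubic_integral {t x y z : ℤ} (h : OnCubic t x y z) :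
    t = 0 ∧ x = 0 ∧ y = 0 ∧ z = 0 := by
  suffices H : ∀ (N : ℕ) (t x y z : ℤ),
      t.natAbs + x.natAbs + y.natAbs + z.natAbs = N → OnCubic t x y z → N = 0 by
    have := H _ t x y z rfl h
    omega
  intro N
  induction N using Nat.strong_induction_on with
  | _ N ih =>
  intro t x y z hN h
  by_contra hN0
  have hprim : ∀ q : ℕ, 2 ≤ q →
      ¬((q : ℤ) ∣ t ∧ (q : ℤ) ∣ x ∧ (q : ℤ) ∣ y ∧ (q : ℤ) ∣ z) := by
    rintro q hq ⟨⟨t', rfl⟩, ⟨x', rfl⟩, ⟨y', rfl⟩, ⟨z', rfl⟩⟩
    have hq0 : (q : ℤ) ^ 3 ≠ 0 := pow_ne_zero 3 (by exact_mod_cast (by omega : q ≠ 0))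
    simp only [Int.natAbs_mul, Int.natAbs_natCast, ← mul_add] at hN
    set M := t'.natAbs + x'.natAbs + y'.natAbs + z'.natAbs
    have hM : M ≠ 0 := fun e => hN0 (by rw [← hN, e, mul_zero])
    have hlt : M < N := hN ▸ lt_mul_left (Nat.pos_of_ne_zero hM) (by omega)
    refine hM (ih M hlt t' x' y' z' rfl (mul_left_cancel₀ hq0 ?_))
    simp only [OnCubic, cubicNorm] at h ⊢
    linear_combination h
  have hfree : ∀ q, IsInertSeven q →
      ¬((q : ℤ) ∣ t ∨ (q : ℤ) ∣ t + x ∨ (q : ℤ) ∣ t + 2 * x) := fun q hq hd =>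
    hprim q hq.1.two_le (cubic_dvd_all hq h hd)
  have htwo : IsInertSeven 2 := ⟨Nat.prime_two, Or.inl rfl⟩
  have ht0 : t ≠ 0 := fun e => hfree 2 htwo (Or.inl (by simp [e]))
  have htx : t + x ≠ 0 := fun e => hfree 2 htwo (Or.inr (Or.inl (by simp [e])))
  have htxx : t + 2 * x ≠ 0 := fun e => hfree 2 htwo (Or.inr (Or.inr (by simp [e])))
  have r₀ := residue_seven ht0 fun q hq hd => hfree q hq (Or.inl hd)
  have r₁ := residue_seven htx fun q hq hd => hfree q hq (Or.inr (Or.inl hd))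
  have r₂ := residue_seven htxx fun q hq hd => hfree q hq (Or.inr (Or.inr hd))
  have e := congrArg (Int.castRingHom (ZMod 7)) h
  rw [map_cubicNorm] at e
  simp only [map_mul, map_add, map_ofNat, eq_intCast, cubicNorm] at e
  push_cast at r₁ r₂
  have z7 : (7 : ZMod 7) = 0 := rfl
  simp only [show (14 : ZMod 7) = 0 from rfl, show (21 : ZMod 7) = 0 from rfl,
    show (77 : ZMod 7) = 0 from rfl, show (98 : ZMod 7) = 0 from rfl,
    show (49 : ZMod 7) = 0 from rfl, z7, zero_mul, add_zero] at e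
  obtain ⟨ht7, hx7⟩ := seven_table _ _ r₀ r₁ r₂ e
  rw [ZMod.intCast_zmod_eq_zero_iff_dvd] at ht7 hx7
  obtain ⟨t', rfl⟩ := ht7
  obtain ⟨x', rfl⟩ := hx7
  simp only [OnCubic, cubicNorm, Nat.cast_ofNat] at h
  have hy : (7 : ℤ) ∣ y := Int.Prime.dvd_pow' (n := y) (k := 3) (by norm_num : Nat.Prime 7)
    ⟨7 * (t' * (t' + x') * (t' + 2 * x')) - (7 * x' ^ 3 + 7 * x' ^ 2 * y + 21 * x' ^ 2 * z +
      2 * x' * y ^ 2 + 11 * x' * y * z + 14 * x' * z ^ 2 + y ^ 2 * z + 2 * y * z ^ 2 + z ^ 3),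
      by push_cast; linarith⟩
  obtain ⟨y', rfl⟩ := hy
  have hz : (7 : ℤ) ∣ z := Int.Prime.dvd_pow' (n := z) (k := 3) (by norm_num : Nat.Prime 7)
    ⟨t' * (t' + x') * (t' + 2 * x') - (x' ^ 3 + 7 * x' ^ 2 * y' + 3 * x' ^ 2 * z + 14 * x' * y' ^ 2 +
      11 * x' * y' * z + 2 * x' * z ^ 2 + 7 * y' ^ 3 + 7 * y' ^ 2 * z + 2 * y' * z ^ 2),
      by push_cast; linarith⟩
  exact hprim 7 (by norm_num)
    ⟨dvd_mul_right _ _, dvd_mul_right _ _, dvd_mul_right _ _, hz⟩

/-- **Only the trivial rational solution.** -/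
theorem cubic_rational {t x y z : ℚ} (h : OnCubic t x y z) :
    t = 0 ∧ x = 0 ∧ y = 0 ∧ z = 0 := by
  set d : ℕ := t.den * x.den * y.den * z.den with hd
  have key : ∀ r : ℚ, (r.den ∣ d) → ∃ n : ℤ, r * d = n := fun r ⟨k, hk⟩ =>
    ⟨r.num * k, by rw [hk]; push_cast; rw [← mul_assoc, Rat.mul_den_eq_num]⟩
  have hd0 : (d : ℚ) ≠ 0 := by simp [hd]
  obtain ⟨T, hT⟩ := key t (by rw [hd]; exact Dvd.intro (x.den * y.den * z.den) (by ring))
  obtain ⟨X, hX⟩ := key x (by rw [hd]; exact Dvd.intro (t.den * y.den * z.den) (by ring))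
  obtain ⟨Y, hY⟩ := key y (by rw [hd]; exact Dvd.intro (t.den * x.den * z.den) (by ring))
  obtain ⟨Z, hZ⟩ := key z (by rw [hd]; exact Dvd.intro (t.den * x.den * y.den) (by ring))
  have hi : OnCubic T X Y Z := by
    refine (Int.castRingHom ℚ).injective_int ?_
    rw [map_cubicNorm]
    simp only [map_mul, map_add, map_ofNat, eq_intCast, ← hT, ← hX, ← hY, ← hZ]
    simp only [OnCubic, cubicNorm] at h ⊢
    linear_combination (d : ℚ) ^ 3 * h
  obtain ⟨a, b, c, e⟩ := cubic_integral hi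
  subst a b c e
  rw [Int.cast_zero] at hT hX hY hZ
  exact ⟨(mul_eq_zero.1 hT).resolve_right hd0, (mul_eq_zero.1 hX).resolve_right hd0,
    (mul_eq_zero.1 hY).resolve_right hd0, (mul_eq_zero.1 hZ).resolve_right hd0⟩

end FA.SurfaceObstructions
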