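import Mathlib.NumberTheory.LegendreSymbol.QuadraticReciprocity
import Mathlib.NumberTheory.Padics.PadicVal.Basic
import Mathlib.Data.Nat.Factorization.Defs
import Mathlib.Data.Rat.Lemmas
import Mathlib.Tactic.LinearCombination
import Mathlib.Tactic.NormNum.Prime

/-!
# The quartic del Pezzo surface of Birch and Swinnerton-Dyer has no rational point

In a primitive solution of `u v = x² - 5 y²`, `(u + v) (u + 2 v) = x² - 5 z²` a prime `≡ ± 2 (mod 5)`
divides each of `u, v, u + v, u + 2 v` to an even power, so each is `0` or `± 1` modulo `5`.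
-/

set_option autoImplicit false
set_option linter.style.haveILetI false

namespace FA.SurfaceObstructions

/-- A prime `≡ ± 2 (mod 5)`. -/
def IsInert (q : ℕ) : Prop := q.Prime ∧ (q % 5 = 2 ∨ q % 5 = 3)

theorem two_three_nonsquare :
    ¬IsSquare ((2 : ℕ) : ZMod 5) ∧ ¬IsSquare ((3 : ℕ) : ZMod 5) := by
  decide

theorem sq_zero_five : ∀ x : ZMod 5, x ^ 2 = 0 → x = 0 := by decide

theorem not_isSquare_five {q : ℕ} (hq : IsInert q) (h2 : q ≠ 2) : ¬IsSquare (5 : ZMod q) := by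
  haveI : Fact q.Prime := ⟨hq.1⟩
  haveI : Fact (Nat.Prime 5) := ⟨by norm_num⟩
  intro h
  have h' : IsSquare ((5 : ℕ) : ZMod q) := by simpa using h
  have := (ZMod.exists_sq_eq_prime_iff_of_mod_four_eq_one (p := 5) (q := q) (by norm_num) h2).2 h'
  rw [← ZMod.natCast_mod] at this
  rcases hq.2 with e | e <;> rw [e] at this
  exacts [two_three_nonsquare.1 this, two_three_nonsquare.2 this]

/-- An odd inert prime divides `x² - 5 y²` only with `x` and `y`. -/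
theorem dvd_of_dvd_norm {q : ℕ} (hq : IsInert q) (h2 : q ≠ 2) {x y : ℤ}
    (h : (q : ℤ) ∣ x ^ 2 - 5 * y ^ 2) : (q : ℤ) ∣ x ∧ (q : ℤ) ∣ y := by
  haveI : Fact q.Prime := ⟨hq.1⟩
  rw [← ZMod.intCast_zmod_eq_zero_iff_dvd] at h ⊢
  rw [← ZMod.intCast_zmod_eq_zero_iff_dvd (y) q]
  push_cast at h
  by_cases hy : (y : ZMod q) = 0
  · rw [hy] at h
    refine ⟨(pow_eq_zero_iff two_ne_zero).1 (by linear_combination h), hy⟩
  · exact absurd ⟨(x : ZMod q) / y, by field_simp; linear_combination -h⟩ (not_isSquare_five hq h2)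

theorem norm_mod_four : ∀ x y : ZMod 8, (x ^ 2 - 5 * y ^ 2) * 4 = 0 →
    (4 * x = 0 ∧ 4 * y = 0) ∨ x ^ 2 - 5 * y ^ 2 = 4 := by decide

/-- Inert primes divide `x² - 5 y²` to even powers. -/
theorem even_padicVal_norm {q : ℕ} (hq : IsInert q) :
    ∀ (N : ℕ) (x y : ℤ), (x ^ 2 - 5 * y ^ 2).natAbs = N → Even (padicValNat q N) := by
  haveI : Fact q.Prime := ⟨hq.1⟩
  intro N
  induction N using Nat.strong_induction_on with
  | _ N ih =>
    intro x y hN
    by_cases hdvd : q ∣ N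
    swap
    · rw [padicValNat.eq_zero_of_not_dvd hdvd]; exact Even.zero
    rcases eq_or_ne N 0 with rfl | hN0
    · simp
    have hboth : ((q : ℤ) ∣ x ∧ (q : ℤ) ∣ y) →
        Even (padicValNat q N) := by
      rintro ⟨⟨x', rfl⟩, ⟨y', rfl⟩⟩
      have hN' : N = q ^ 2 * (x' ^ 2 - 5 * y' ^ 2).natAbs := by
        rw [← hN, show ((q : ℤ) * x') ^ 2 - 5 * ((q : ℤ) * y') ^ 2 =
          ((q ^ 2 : ℕ) : ℤ) * (x' ^ 2 - 5 * y' ^ 2) by push_cast; ring, Int.natAbs_mul,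
          Int.natAbs_natCast]
      have hM0 : (x' ^ 2 - 5 * y' ^ 2).natAbs ≠ 0 := fun e => hN0 (by rw [hN', e, mul_zero])
      rw [hN', padicValNat.mul (pow_ne_zero 2 hq.1.ne_zero) hM0, padicValNat.prime_pow]
      refine even_two.add (ih _ ?_ x' y' rfl)
      rw [hN']
      exact lt_mul_left (Nat.pos_of_ne_zero hM0) (Nat.one_lt_pow two_ne_zero hq.1.one_lt)
    by_cases h2 : q = 2
    swap
    · exact hboth (dvd_of_dvd_norm hq h2 (Int.natCast_dvd.2 (hN ▸ hdvd)))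
    subst h2
    have hd : (2 : ℤ) ∣ x ^ 2 - 5 * y ^ 2 := Int.natCast_dvd.2 (hN ▸ hdvd)
    have h8 : ((x : ZMod 8) ^ 2 - 5 * (y : ZMod 8) ^ 2) * 4 = 0 := by
      obtain ⟨k, hk⟩ := hd
      have := congrArg (Int.cast : ℤ → ZMod 8) hk
      push_cast at this
      rw [this, mul_right_comm, show (2 : ZMod 8) * 4 = 0 by decide, zero_mul]
    rcases norm_mod_four _ _ h8 with ⟨hx, hy⟩ | h4
    · refine hboth ⟨?_, ?_⟩
      · have : ((4 * x : ℤ) : ZMod 8) = 0 := by push_cast; exact hx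
        rw [ZMod.intCast_zmod_eq_zero_iff_dvd] at this
        omega
      · have : ((4 * y : ℤ) : ZMod 8) = 0 := by push_cast; exact hy
        rw [ZMod.intCast_zmod_eq_zero_iff_dvd] at this
        omega
    · have : ((x ^ 2 - 5 * y ^ 2 - 4 : ℤ) : ZMod 8) = 0 := by push_cast; rw [h4, sub_self]
      rw [ZMod.intCast_zmod_eq_zero_iff_dvd] at this
      obtain ⟨k, hk⟩ := this
      have hN4 : N = 2 ^ 2 * (2 * k + 1).natAbs := by
        rw [← hN, show x ^ 2 - 5 * y ^ 2 = ((4 : ℕ) : ℤ) * (2 * k + 1) by push_cast at hk ⊢; linarith,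
          Int.natAbs_mul]
        rfl
      have hodd : ¬2 ∣ (2 * k + 1).natAbs := by omega
      rw [hN4, padicValNat.mul (by norm_num) (by omega), padicValNat.prime_pow,
        padicValNat.eq_zero_of_not_dvd hodd]
      exact even_two.add Even.zero

/-- The predicate shared by `0`, the norms and their products. -/
def ResidueOK (n : ℤ) : Prop := (n : ZMod 5) = 0 ∨ (n : ZMod 5) = 1 ∨ (n : ZMod 5) = -1

theorem residueOK_mul : ∀ a b : ZMod 5, (a = 0 ∨ a = 1 ∨ a = -1) → (b = 0 ∨ b = 1 ∨ b = -1) →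
    (a * b = 0 ∨ a * b = 1 ∨ a * b = -1) := by decide

theorem prime_residue : ∀ a : ZMod 5, a ≠ 2 → a ≠ 3 → (a = 0 ∨ a = 1 ∨ a = -1) := by decide

theorem sq_residue : ∀ a : ZMod 5, a * a = 0 ∨ a * a = 1 ∨ a * a = -1 := by decide

/-- Even exponents at the inert primes give a residue `0` or `± 1`. -/
theorem residueOK_of_even {n : ℤ} (hn : n ≠ 0)
    (h : ∀ q, IsInert q → Even (padicValNat q n.natAbs)) : ResidueOK n := by
  let P : ℕ → Prop := fun m => (m : ZMod 5) = 0 ∨ (m : ZMod 5) = 1 ∨ (m : ZMod 5) = -1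
  have hN : n.natAbs ≠ 0 := Int.natAbs_ne_zero.2 hn
  have key : P (n.natAbs.factorization.prod (· ^ ·)) := by
    refine Finset.prod_induction _ P (fun a b ha hb => ?_) (Or.inr (Or.inl Nat.cast_one)) ?_
    · simp only [P, Nat.cast_mul]; exact residueOK_mul _ _ ha hb
    intro q hq
    have hprime : q.Prime := Nat.prime_of_mem_primeFactors (Nat.support_factorization _ ▸ hq)
    simp only [P, Nat.cast_pow]
    by_cases hi : IsInert q
    · obtain ⟨k, hk⟩ := h q hi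
      rw [Nat.factorization_def _ hprime, hk, pow_add]
      exact sq_residue _
    · induction n.natAbs.factorization q with
      | zero => exact Or.inr (Or.inl (pow_zero _))
      | succ e he =>
        rw [pow_succ]
        refine residueOK_mul _ _ he (prime_residue _ (fun e2 => hi ⟨hprime, Or.inl ?_⟩)
          (fun e3 => hi ⟨hprime, Or.inr ?_⟩))
        · have := congrArg ZMod.val e2
          rwa [ZMod.val_natCast] at this
        · have := congrArg ZMod.val e3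
          rwa [ZMod.val_natCast] at this
  rw [Nat.prod_factorization_pow_eq_self hN] at key
  have he := Int.natAbs_eq n
  simp only [P] at key
  generalize n.natAbs = m at he key
  rcases he with rfl | rfl
  · simpa [ResidueOK] using key
  · rcases key with k | k | k <;> simp [ResidueOK, k]

theorem five_table : ∀ u v x : ZMod 5, (u = 0 ∨ u = 1 ∨ u = -1) → (v = 0 ∨ v = 1 ∨ v = -1) →
    (u + v = 0 ∨ u + v = 1 ∨ u + v = -1) → (u + 2 * v = 0 ∨ u + 2 * v = 1 ∨ u + 2 * v = -1) →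
    u * v = x ^ 2 → (u + v) * (u + 2 * v) = x ^ 2 → u = 0 ∧ v = 0 := by
  decide

theorem eight_table : ∀ u v x y z : ZMod 8, 4 * u = 0 → 4 * v = 0 → u * v = x ^ 2 - 5 * y ^ 2 →
    (u + v) * (u + 2 * v) = x ^ 2 - 5 * z ^ 2 → 4 * x = 0 ∧ 4 * y = 0 ∧ 4 * z = 0 := by
  decide

/-- The equations. -/
def OnBSD {R : Type*} [CommRing R] (u v x y z : R) : Prop :=
  u * v = x ^ 2 - 5 * y ^ 2 ∧ (u + v) * (u + 2 * v) = x ^ 2 - 5 * z ^ 2

theorem sq_eq_mul {c : ℕ} (hc : ∀ r : ℕ, r ≤ c → r * r ≠ c) {x y : ℤ} (h : x ^ 2 = (c : ℤ) * y ^ 2) :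
    x = 0 ∧ y = 0 := by
  by_cases hy : y = 0
  · subst hy; exact ⟨(pow_eq_zero_iff two_ne_zero).1 (by simpa using h), rfl⟩
  exfalso
  have hsq : IsSquare ((c : ℤ) : ℚ) := ⟨(x : ℚ) / y, by
    have h' : (x : ℚ) ^ 2 = ((c : ℤ) : ℚ) * (y : ℚ) ^ 2 := by exact_mod_cast h
    have hy' : (y : ℚ) ≠ 0 := Int.cast_ne_zero.2 hy
    rw [div_mul_div_comm, ← pow_two, ← pow_two, h', mul_div_assoc, div_self (pow_ne_zero 2 hy'),
      mul_one]⟩
  obtain ⟨r, hr⟩ := Rat.isSquare_intCast_iff.1 hsq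
  have h2 : r.natAbs * r.natAbs = c := by rw [← Int.natAbs_mul, ← hr, Int.natAbs_natCast]
  exact hc _ (h2 ▸ Nat.le_mul_self _) h2

theorem sq_eq_five_mul {x y : ℤ} (h : x ^ 2 = 5 * y ^ 2) : x = 0 ∧ y = 0 :=
  sq_eq_mul (c := 5) (by decide) (by exact_mod_cast h)

/-- **Only the trivial integral solution.** -/
theorem bsd_integral {u v x y z : ℤ} (h : OnBSD u v x y z) :
    u = 0 ∧ v = 0 ∧ x = 0 ∧ y = 0 ∧ z = 0 := by
  suffices H : ∀ (N : ℕ) (u v x y z : ℤ),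
      u.natAbs + v.natAbs + x.natAbs + y.natAbs + z.natAbs = N → OnBSD u v x y z → N = 0 by
    have := H _ u v x y z rfl h
    omega
  intro N
  induction N using Nat.strong_induction_on with
  | _ N ih =>
  intro u v x y z hN h
  obtain ⟨h₁, h₂⟩ := h
  by_contra hN0
  -- no integer at least two divides all five
  have hprim : ∀ q : ℕ, 2 ≤ q →
      ¬((q : ℤ) ∣ u ∧ (q : ℤ) ∣ v ∧ (q : ℤ) ∣ x ∧ (q : ℤ) ∣ y ∧ (q : ℤ) ∣ z) := by
    rintro q hq ⟨⟨u', rfl⟩, ⟨v', rfl⟩, ⟨x', rfl⟩, ⟨y', rfl⟩, ⟨z', rfl⟩⟩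
    have hq0 : (q : ℤ) ^ 2 ≠ 0 := pow_ne_zero 2 (by exact_mod_cast (by omega : q ≠ 0))
    simp only [Int.natAbs_mul, Int.natAbs_natCast, ← mul_add] at hN
    set M := u'.natAbs + v'.natAbs + x'.natAbs + y'.natAbs + z'.natAbs
    have hM : M ≠ 0 := fun e => hN0 (by rw [← hN, e, mul_zero])
    have hlt : M < N := hN ▸ lt_mul_left (Nat.pos_of_ne_zero hM) (by omega)
    exact hM (ih M hlt u' v' x' y' z' rfl ⟨mul_left_cancel₀ hq0 (by linear_combination h₁),
      mul_left_cancel₀ hq0 (by linear_combination h₂)⟩)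
  by_cases huv : u * v = 0
  · obtain ⟨hx, hy⟩ := sq_eq_five_mul (x := x) (y := y) (by linarith)
    subst hx hy
    have hu : u = 0 ∧ v = 0 := by
      rcases mul_eq_zero.1 huv with rfl | rfl
      · exact ⟨rfl, by nlinarith [sq_nonneg z, sq_nonneg v]⟩
      · exact ⟨by nlinarith [sq_nonneg z, sq_nonneg u], rfl⟩
    obtain ⟨rfl, rfl⟩ := hu
    have hz : z = 0 := by nlinarith
    subst hz
    exact hN0 (by simpa using hN.symm)
  by_cases hw : (u + v) * (u + 2 * v) = 0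
  · obtain ⟨hx, hz⟩ := sq_eq_five_mul (x := x) (y := z) (by linarith)
    subst hx hz
    rcases mul_eq_zero.1 hw with e | e
    · obtain rfl : u = -v := by linarith
      obtain ⟨hv, -⟩ := sq_eq_five_mul (x := v) (y := y) (by linarith)
      exact huv (by rw [hv]; ring)
    · obtain rfl : u = -(2 * v) := by linarith
      obtain ⟨-, hv⟩ := sq_eq_mul (c := 10) (by decide) (x := 5 * y) (y := v)
        (by push_cast; linarith)
      exact huv (by rw [hv]; ring)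
  have hcop : ∀ q, IsInert q → ¬((q : ℤ) ∣ u ∧ (q : ℤ) ∣ v) := by
    rintro q hq ⟨hu, hv⟩
    refine hprim q hq.1.two_le ⟨hu, hv, ?_⟩
    by_cases h2 : q = 2
    · subst h2
      obtain ⟨u', rfl⟩ := hu
      obtain ⟨v', rfl⟩ := hv
      have e₁ := congrArg (Int.cast : ℤ → ZMod 8) h₁
      have e₂ := congrArg (Int.cast : ℤ → ZMod 8) h₂
      push_cast at e₁ e₂
      have h0 : ∀ w : ZMod 8, 4 * (2 * w) = 0 := by decide
      obtain ⟨tx, ty, tz⟩ := eight_table _ _ _ _ _ (h0 _) (h0 _) e₁ e₂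
      have key : ∀ w : ℤ, 4 * (w : ZMod 8) = 0 → (2 : ℤ) ∣ w := fun w hw => by
        have : ((4 * w : ℤ) : ZMod 8) = 0 := by push_cast; exact hw
        rw [ZMod.intCast_zmod_eq_zero_iff_dvd] at this
        omega
      exact ⟨key x tx, key y ty, key z tz⟩
    · obtain ⟨hx, hy⟩ := dvd_of_dvd_norm hq h2 (h₁ ▸ hu.mul_right v)
      exact ⟨hx, hy, (dvd_of_dvd_norm hq h2 (h₂ ▸ (hu.add hv).mul_right _)).2⟩
  have hcop' : ∀ q, IsInert q → ¬((q : ℤ) ∣ u + v ∧ (q : ℤ) ∣ u + 2 * v) := fun q hq hd => by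
    have hv : (q : ℤ) ∣ v := by simpa [two_mul] using dvd_sub hd.2 hd.1
    exact hcop q hq ⟨by simpa using dvd_sub hd.1 hv, hv⟩
  have heven : ∀ (a b s : ℤ), a ≠ 0 → b ≠ 0 → a * b = x ^ 2 - 5 * s ^ 2 →
      (∀ q, IsInert q → ¬((q : ℤ) ∣ a ∧ (q : ℤ) ∣ b)) → ResidueOK a := by
    intro a b s ha hb hab hc
    refine residueOK_of_even ha fun q hq => ?_
    haveI : Fact q.Prime := ⟨hq.1⟩
    by_cases hd : q ∣ a.natAbs
    swap
    · rw [padicValNat.eq_zero_of_not_dvd hd]; exact Even.zero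
    have hd' : ¬q ∣ b.natAbs := fun e => hc q hq ⟨Int.natCast_dvd.2 hd, Int.natCast_dvd.2 e⟩
    have := even_padicVal_norm hq _ x s rfl
    rwa [← hab, Int.natAbs_mul, padicValNat.mul (Int.natAbs_ne_zero.2 ha) (Int.natAbs_ne_zero.2 hb),
      padicValNat.eq_zero_of_not_dvd hd', add_zero] at this
  obtain ⟨hu0, hv0⟩ := mul_ne_zero_iff.1 huv
  obtain ⟨ha0, hb0⟩ := mul_ne_zero_iff.1 hw
  have ru := heven u v y hu0 hv0 h₁ hcop
  have rv := heven v u y hv0 hu0 (by linarith) fun q hq hd => hcop q hq hd.symm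
  have ra := heven (u + v) (u + 2 * v) z ha0 hb0 h₂ hcop'
  have rb := heven (u + 2 * v) (u + v) z hb0 ha0 (by linarith) fun q hq hd => hcop' q hq hd.symm
  have e₁ := congrArg (Int.cast : ℤ → ZMod 5) h₁
  have e₂ := congrArg (Int.cast : ℤ → ZMod 5) h₂
  simp only [ResidueOK] at ru rv ra rb
  push_cast at e₁ e₂ ru rv ra rb
  rw [show (5 : ZMod 5) = 0 from rfl, zero_mul, sub_zero] at e₁ e₂
  obtain ⟨hu5, hv5⟩ := five_table _ _ _ ru rv ra rb e₁ e₂
  rw [hu5, zero_mul] at e₁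
  replace e₁ := sq_zero_five _ e₁.symm
  rw [ZMod.intCast_zmod_eq_zero_iff_dvd] at hu5 hv5 e₁
  obtain ⟨u', rfl⟩ := hu5
  obtain ⟨v', rfl⟩ := hv5
  obtain ⟨x', rfl⟩ := e₁
  push_cast at h₁ h₂
  have hy : (5 : ℤ) ∣ y := Int.Prime.dvd_pow' (n := y) (k := 2) (by norm_num : Nat.Prime 5)
    ⟨x' ^ 2 - u' * v', by push_cast; linarith⟩
  have hz : (5 : ℤ) ∣ z := Int.Prime.dvd_pow' (n := z) (k := 2) (by norm_num : Nat.Prime 5)
    ⟨x' ^ 2 - (u' + v') * (u' + 2 * v'), by push_cast; linarith⟩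
  exact hprim 5 (by norm_num) ⟨dvd_mul_right _ _, dvd_mul_right _ _, dvd_mul_right _ _, hy, hz⟩

/-- **Only the trivial rational solution.** -/
theorem bsd_rational {u v x y z : ℚ} (h : OnBSD u v x y z) :
    u = 0 ∧ v = 0 ∧ x = 0 ∧ y = 0 ∧ z = 0 := by
  set d : ℕ := u.den * v.den * x.den * y.den * z.den with hd
  have key : ∀ r : ℚ, (r.den ∣ d) → ∃ n : ℤ, r * d = n := fun r ⟨k, hk⟩ =>
    ⟨r.num * k, by rw [hk]; push_cast; rw [← mul_assoc, Rat.mul_den_eq_num]⟩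
  have hd0 : (d : ℚ) ≠ 0 := by simp [hd]
  obtain ⟨U, hU⟩ := key u (by rw [hd]; exact Dvd.intro (v.den * x.den * y.den * z.den) (by ring))
  obtain ⟨V, hV⟩ := key v (by rw [hd]; exact Dvd.intro (u.den * x.den * y.den * z.den) (by ring))
  obtain ⟨X, hX⟩ := key x (by rw [hd]; exact Dvd.intro (u.den * v.den * y.den * z.den) (by ring))
  obtain ⟨Y, hY⟩ := key y (by rw [hd]; exact Dvd.intro (u.den * v.den * x.den * z.den) (by ring))
  obtain ⟨Z, hZ⟩ := key z (by rw [hd]; exact Dvd.intro (u.den * v.den * x.den * y.den) (by ring))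
  obtain ⟨h₁, h₂⟩ := h
  obtain ⟨a, b, c, e, f⟩ := bsd_integral (u := U) (v := V) (x := X) (y := Y) (z := Z) ⟨by
      have : ((U * V : ℤ) : ℚ) = ((X ^ 2 - 5 * Y ^ 2 : ℤ) : ℚ) := by
        push_cast; rw [← hU, ← hV, ← hX, ← hY]; linear_combination (d : ℚ) ^ 2 * h₁
      exact_mod_cast this, by
      have : (((U + V) * (U + 2 * V) : ℤ) : ℚ) = ((X ^ 2 - 5 * Z ^ 2 : ℤ) : ℚ) := by
        push_cast; rw [← hU, ← hV, ← hX, ← hZ]; linear_combination (d : ℚ) ^ 2 * h₂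
      exact_mod_cast this⟩
  subst a b c e f
  rw [Int.cast_zero] at hU hV hX hY hZ
  exact ⟨(mul_eq_zero.1 hU).resolve_right hd0, (mul_eq_zero.1 hV).resolve_right hd0,
    (mul_eq_zero.1 hX).resolve_right hd0, (mul_eq_zero.1 hY).resolve_right hd0,
    (mul_eq_zero.1 hZ).resolve_right hd0⟩

end FA.SurfaceObstructions
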