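import Fermat.Agent.SurfaceObstructions.DelPezzo
import Mathlib.NumberTheory.Padics.Hensel
import Mathlib.NumberTheory.Padics.RingHoms
import Mathlib.FieldTheory.Finite.Basic
import Mathlib.FieldTheory.Separable
import Mathlib.Analysis.Real.Sqrt

/-!
# The two surfaces are smooth and have points everywhere locally
-/

set_option autoImplicit false
set_option linter.style.haveILetI false

noncomputable section

open Polynomial

namespace FA.SurfaceObstructions

variable {p : ℕ} [Fact p.Prime]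

theorem minus_one_square_five : ((-1 : ℤ) : ZMod 5) ≠ 0 ∧ IsSquare ((-1 : ℤ) : ZMod 5) := by
  decide

/-- An integer which is a nonzero square modulo an odd `p` is a square in `ℚ_p`. -/
theorem exists_padic_sqrt (hp : p ≠ 2) {a : ℤ} (h0 : (a : ZMod p) ≠ 0)
    (h : IsSquare (a : ZMod p)) : ∃ s : ℚ_[p], s ^ 2 = (a : ℚ_[p]) := by
  obtain ⟨r, hr⟩ := h
  set z : ℤ_[p] := (r.val : ℤ_[p])
  have hz : PadicInt.toZMod z = r := by simp [z]
  set F : ℤ_[p][X] := Polynomial.X ^ 2 - Polynomial.C (a : ℤ_[p])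
  have e : ∀ t, F.aeval t = t ^ 2 - (a : ℤ_[p]) := fun t => by simp [F]
  have e' : F.derivative.aeval z = 2 * z := by simp [F, derivative_pow]
  have h2 : (2 : ZMod p) ≠ 0 := fun h2 => by
    have : ((2 : ℕ) : ZMod p) = 0 := by simpa using h2
    rw [ZMod.natCast_eq_zero_iff] at this
    exact hp ((Nat.prime_dvd_prime_iff_eq Fact.out Nat.prime_two).1 this)
  have hlt : ∀ t : ℤ_[p], PadicInt.toZMod t = 0 ↔ ‖t‖ < 1 := fun t => by
    rw [← RingHom.mem_ker, PadicInt.ker_toZMod, PadicInt.maximalIdeal_eq_span_p,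
      Ideal.mem_span_singleton, PadicInt.norm_lt_one_iff_dvd]
  have h1 : ‖F.derivative.aeval z‖ = 1 :=
    le_antisymm (PadicInt.norm_le_one _) (not_lt.1 fun hl => by
      have := (hlt _).2 hl
      rw [e', map_mul, hz, map_ofNat] at this
      exact mul_ne_zero h2 (fun e => h0 (by rw [hr, e, mul_zero])) this)
  obtain ⟨t, ht, -⟩ := hensels_lemma (F := F) (a := z) (by
    rw [h1, one_pow]
    refine (hlt _).1 ?_
    rw [e, map_sub, map_pow, hz, map_intCast, hr, sq, sub_self])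
  refine ⟨(t : ℚ_[p]), ?_⟩
  rw [e, sub_eq_zero] at ht
  exact_mod_cast congrArg (fun x : ℤ_[p] => (x : ℚ_[p])) ht

/-- An integer `≡ 1 (mod 8)` is a square in `ℚ_2`. -/
theorem exists_dyadic_sqrt {a : ℤ} (h : a % 8 = 1) : ∃ s : ℚ_[2], s ^ 2 = (a : ℚ_[2]) := by
  set F : ℤ_[2][X] := Polynomial.X ^ 2 - Polynomial.C (a : ℤ_[2])
  have e : ∀ t, F.aeval t = t ^ 2 - (a : ℤ_[2]) := fun t => by simp [F]
  have hd : F.derivative.aeval (1 : ℤ_[2]) = ((2 : ℤ) : ℤ_[2]) := by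
    simp [F, derivative_pow]
  have h2 : ‖((2 : ℤ) : ℤ_[2])‖ = (2 : ℝ)⁻¹ := by
    have := PadicInt.norm_p (p := 2)
    simpa using this
  obtain ⟨t, ht, -⟩ := hensels_lemma (F := F) (a := (1 : ℤ_[2])) (by
    rw [e, one_pow, hd, h2, show (1 : ℤ_[2]) - (a : ℤ_[2]) = ((1 - a : ℤ) : ℤ_[2]) by push_cast; ring]
    calc ‖((1 - a : ℤ) : ℤ_[2])‖ ≤ (2 : ℝ) ^ (-(3 : ℕ) : ℤ) := by
          exact_mod_cast (PadicInt.norm_int_le_pow_iff_dvd (p := 2) (n := 3)).2 (by omega)
      _ < ((2 : ℝ)⁻¹) ^ 2 := by norm_num)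
  refine ⟨(t : ℚ_[2]), ?_⟩
  rw [e, sub_eq_zero] at ht
  exact_mod_cast congrArg (fun x : ℤ_[2] => (x : ℚ_[2])) ht

/-- Real points on Iskovskikh's surfaces. -/
theorem iskovskikh_real {c : ℤ} (hc : 0 < c) :
    ∃ x y z : ℝ, y ^ 2 + z ^ 2 = ((c : ℝ) - x ^ 2) * (x ^ 2 - c + 1) := by
  refine ⟨Real.sqrt ((c : ℝ) - 1 / 2), 1 / 2, 0, ?_⟩
  have : (1 : ℝ) ≤ c := by exact_mod_cast hc
  rw [Real.sq_sqrt (by linarith)]
  ring

/-- `p`-adic points on Iskovskikh's surfaces. -/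
theorem iskovskikh_padic {c : ℤ} (hc : c % 4 = 3) :
    ∃ x y z : ℚ_[p], y ^ 2 + z ^ 2 = ((c : ℚ_[p]) - x ^ 2) * (x ^ 2 - c + 1) := by
  rcases eq_or_ne p 2 with rfl | hp
  · -- a value `2 w` with `w ≡ 1 (mod 4)`
    obtain ⟨x, w, hx, hw⟩ : ∃ x w : ℤ, (c - x ^ 2) * (x ^ 2 - c + 1) = 2 * w ∧ w % 4 = 1 := by
      obtain ⟨k, rfl⟩ : ∃ k, c = 4 * k + 3 := ⟨c / 4, by omega⟩
      rcases Int.even_or_odd k with ⟨j, rfl⟩ | ⟨j, rfl⟩
      · exact ⟨0, 4 * (-8 * j ^ 2 - 5 * j - 1) + 1, by ring, by omega⟩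
      · exact ⟨1, 4 * (-8 * j ^ 2 - 11 * j - 4) + 1, by ring, by omega⟩
    rcases (by omega : w % 8 = 1 ∨ w % 8 = 5) with h1 | h5
    · obtain ⟨s, hs⟩ := exists_dyadic_sqrt h1
      refine ⟨(x : ℚ_[2]), s, s, ?_⟩
      have := congrArg (fun a : ℤ => (a : ℚ_[2])) hx
      push_cast at this
      linear_combination 2 * hs - this
    · obtain ⟨s, hs⟩ := exists_dyadic_sqrt (show (w - 4) % 8 = 1 by omega)
      refine ⟨(x : ℚ_[2]), 2 + s, 2 - s, ?_⟩
      have := congrArg (fun a : ℤ => (a : ℚ_[2])) hx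
      push_cast at this hs
      linear_combination 2 * hs - this
  · set U : ℤ := (c * (p : ℤ) ^ 2 - 1) * (1 - (c - 1) * (p : ℤ) ^ 2)
    have hU : (U : ZMod p) = -1 := by simp [U]
    have hp0 : (p : ℚ_[p]) ≠ 0 := Nat.cast_ne_zero.2 (Fact.out : p.Prime).ne_zero
    obtain ⟨a, b, hab, ha⟩ : ∃ a b : ZMod p, a ^ 2 + b ^ 2 = -1 ∧ a ≠ 0 := by
      obtain ⟨a, b, hab⟩ := ZMod.sq_add_sq p (-1)
      rcases ne_or_eq a 0 with ha | ha
      · exact ⟨a, b, hab, ha⟩
      · refine ⟨b, a, by rw [← hab]; ring, fun hb => ?_⟩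
        simp [ha, hb] at hab
    obtain ⟨s, hs⟩ := exists_padic_sqrt hp (a := U - (b.val : ℤ) ^ 2)
      (by push_cast [ZMod.natCast_zmod_val]
          rw [hU, ← hab, add_sub_cancel_right]
          exact pow_ne_zero 2 ha)
      (by push_cast [ZMod.natCast_zmod_val]
          rw [hU, ← hab, add_sub_cancel_right]
          exact ⟨a, sq a⟩)
    refine ⟨(p : ℚ_[p])⁻¹, s / (p : ℚ_[p]) ^ 2, (b.val : ℚ_[p]) / (p : ℚ_[p]) ^ 2, ?_⟩
    simp only [U] at hs
    push_cast at hs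
    field_simp
    linear_combination hs

/-- Real points on the surface of Birch and Swinnerton-Dyer. -/
theorem bsd_real : ∃ u v x y z : ℝ, OnBSD u v x y z ∧ y ≠ 0 := by
  refine ⟨0, 0, Real.sqrt 5, 1, 1, ⟨?_, ?_⟩, one_ne_zero⟩ <;>
    rw [Real.sq_sqrt (by norm_num)] <;> norm_num

/-- `p`-adic points on the surface of Birch and Swinnerton-Dyer. -/
theorem bsd_padic : ∃ u v x y z : ℚ_[p], OnBSD u v x y z ∧ (u ≠ 0 ∨ y ≠ 0) := by
  have hone : (1 : ℚ_[p]) ≠ 0 := one_ne_zero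
  -- a square root of `-1`, `5`, `-5` or `-15` gives a point
  have hpoint : (∃ s : ℚ_[p], s ^ 2 = -1) ∨ (∃ s : ℚ_[p], s ^ 2 = 5) ∨
      (∃ s : ℚ_[p], s ^ 2 = -5) ∨ (∃ s : ℚ_[p], s ^ 2 = -15) := by
    rcases eq_or_ne p 2 with rfl | hp
    · obtain ⟨s, hs⟩ := exists_dyadic_sqrt (a := -15) (by norm_num)
      exact Or.inr (Or.inr (Or.inr ⟨s, by rw [hs]; norm_num⟩))
    rcases eq_or_ne p 5 with rfl | hp5
    · obtain ⟨s, hs⟩ := exists_padic_sqrt (p := 5) hp (a := -1) minus_one_square_five.1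
        minus_one_square_five.2
      exact Or.inl ⟨s, by rw [hs]; norm_num⟩
    have h5 : (5 : ZMod p) ≠ 0 := fun e => by
      have : ((5 : ℕ) : ZMod p) = 0 := by simpa using e
      rw [ZMod.natCast_eq_zero_iff] at this
      exact hp5 ((Nat.prime_dvd_prime_iff_eq Fact.out (by norm_num)).1 this)
    by_cases h1 : IsSquare ((-1 : ℤ) : ZMod p)
    · obtain ⟨s, hs⟩ := exists_padic_sqrt hp (by simp) h1
      exact Or.inl ⟨s, by rw [hs]; norm_num⟩
    by_cases h2 : IsSquare ((5 : ℤ) : ZMod p)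
    · obtain ⟨s, hs⟩ := exists_padic_sqrt hp (by simpa using h5) h2
      exact Or.inr (Or.inl ⟨s, by rw [hs]; norm_num⟩)
    have h3 : IsSquare ((-5 : ℤ) : ZMod p) := by
      rw [← legendreSym.eq_one_iff p (by simpa using h5), show (-5 : ℤ) = -1 * 5 by norm_num,
        legendreSym.mul, (legendreSym.eq_neg_one_iff p).2 h1, (legendreSym.eq_neg_one_iff p).2 h2]
      norm_num
    obtain ⟨s, hs⟩ := exists_padic_sqrt hp (by simpa using h5) h3
    exact Or.inr (Or.inr (Or.inl ⟨s, by rw [hs]; norm_num⟩))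
  rcases hpoint with ⟨s, hs⟩ | ⟨s, hs⟩ | ⟨s, hs⟩ | ⟨s, hs⟩
  · exact ⟨1, 1, 1, 0, s, ⟨by ring, by linear_combination 5 * hs⟩, Or.inl hone⟩
  · exact ⟨0, 0, s, 1, 1, ⟨by linear_combination -hs, by linear_combination -hs⟩, Or.inr hone⟩
  · refine ⟨1, -5, 0, 1, 6 * s / 5, ⟨by ring, ?_⟩, Or.inl hone⟩
    field_simp
    linear_combination 36 * hs
  · refine ⟨-5, 1, 0, 1, 2 * s / 5, ⟨by ring, ?_⟩, Or.inr hone⟩
    field_simp
    linear_combination 4 * hs

/-- **The surface of Birch and Swinnerton-Dyer is smooth**: at a nonzero common zero the two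
gradients are independent. -/
theorem bsd_smooth {F : Type*} [Field F] [CharZero F] {u v x y z : F} (h : OnBSD u v x y z)
    (hne : u ≠ 0 ∨ v ≠ 0 ∨ x ≠ 0 ∨ y ≠ 0 ∨ z ≠ 0) {l m : F}
    (e₁ : l * v + m * (2 * u + 3 * v) = 0) (e₂ : l * u + m * (3 * u + 4 * v) = 0)
    (e₃ : l * (-2 * x) + m * (-2 * x) = 0) (e₄ : l * (10 * y) = 0) (e₅ : m * (10 * z) = 0) :
    l = 0 ∧ m = 0 := by
  obtain ⟨h₁, h₂⟩ := h
  -- `(8 m² - (l + 3 m)²) u = 0` and the same for `v`
  have du : (8 * m ^ 2 - (l + 3 * m) ^ 2) * u = 0 := by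
    linear_combination (4 * m) * e₁ - (l + 3 * m) * e₂
  have dv : (8 * m ^ 2 - (l + 3 * m) ^ 2) * v = 0 := by
    linear_combination (2 * m) * e₂ - (l + 3 * m) * e₁
  have hsum : (l + m) * x = 0 := by linear_combination (-1 / 2 : F) * e₃
  have hy : l ≠ 0 → y = 0 := fun hl => by
    have := (mul_eq_zero.1 e₄).resolve_left hl
    exact (mul_eq_zero.1 this).resolve_left (by norm_num)
  have hz : m ≠ 0 → z = 0 := fun hm => by
    have := (mul_eq_zero.1 e₅).resolve_left hm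
    exact (mul_eq_zero.1 this).resolve_left (by norm_num)
  have hsq : ∀ {a : F}, a ^ 2 = 0 → a = 0 := fun {a} ha => (pow_eq_zero_iff two_ne_zero).1 ha
  by_contra hlm
  have hzero : u = 0 ∧ v = 0 ∧ x = 0 ∧ y = 0 ∧ z = 0 := by
    rcases eq_or_ne m 0 with rfl | hm
    · have hl : l ≠ 0 := fun e => hlm ⟨e, rfl⟩
      have hu : u = 0 := by simpa [hl] using e₂
      have hv : v = 0 := by simpa [hl] using e₁
      have hx : x = 0 := by simpa [hl] using hsum
      have y0 := hy hl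
      subst hu hv hx y0
      exact ⟨rfl, rfl, rfl, rfl, hsq (by linear_combination (1 / 5 : F) * h₂)⟩
    have z0 := hz hm
    subst z0
    rcases eq_or_ne l 0 with rfl | hl
    · have hu : u = 0 := by simpa [hm, ← sub_mul, show (8 : F) - 3 ^ 2 = -1 by norm_num,
        mul_pow] using du
      have hv : v = 0 := by simpa [hm, ← sub_mul, show (8 : F) - 3 ^ 2 = -1 by norm_num,
        mul_pow] using dv
      have hx : x = 0 := by simpa [hm] using hsum
      subst hu hv hx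
      exact ⟨rfl, rfl, rfl, hsq (by linear_combination (1 / 5 : F) * h₁), rfl⟩
    have y0 := hy hl
    subst y0
    rcases eq_or_ne x 0 with rfl | hx
    · have huv : u * v = 0 := by linear_combination h₁
      rcases mul_eq_zero.1 huv with rfl | rfl
      · exact ⟨rfl, hsq (by linear_combination (1 / 2 : F) * h₂), rfl, rfl, rfl⟩
      · exact ⟨hsq (by linear_combination h₂), rfl, rfl, rfl, rfl⟩
    have hlm' : l = -m := eq_neg_of_add_eq_zero_left ((mul_eq_zero.1 hsum).resolve_right hx)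
    subst hlm'
    have hu : u = 0 := by
      have : (4 * m ^ 2) * u = 0 := by linear_combination du
      simpa [hm] using this
    have hv : v = 0 := by
      have : (4 * m ^ 2) * v = 0 := by linear_combination dv
      simpa [hm] using this
    subst hu hv
    exact absurd (hsq (by linear_combination -h₁)) hx
  obtain ⟨rfl, rfl, rfl, rfl, rfl⟩ := hzero
  simp at hne

/-- **The conic bundle of Iskovskikh is smooth**: the quartic is separable. -/
theorem iskovskikh_separable {F : Type*} [Field F] [CharZero F] {c : ℤ} (hc : c % 4 = 3) :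
    ((Polynomial.C (c : F) - Polynomial.X ^ 2) *
      (Polynomial.X ^ 2 - Polynomial.C ((c : F) - 1))).Separable := by
  have h2 : ((2 : ℕ) : F) ≠ 0 := by norm_num
  have hc0 : (c : F) ≠ 0 := Int.cast_ne_zero.2 (by omega)
  have hc1 : (c : F) - 1 ≠ 0 := by
    rw [← Int.cast_one, ← Int.cast_sub, Int.cast_ne_zero]; omega
  have hA : (Polynomial.C (c : F) - Polynomial.X ^ 2).Separable := by
    have hu := (separable_X_pow_sub_C (c : F) h2 hc0)
    rw [← neg_sub]
    exact Separable.of_dvd hu (neg_dvd.2 dvd_rfl)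
  exact hA.mul (separable_X_pow_sub_C ((c : F) - 1) h2 hc1)
    ⟨1, 1, by rw [map_sub, map_one]; ring⟩

end FA.SurfaceObstructions
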