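import Fermat.Agent.SurfaceObstructions.CubicNorm
import Mathlib.FieldTheory.ChevalleyWarning
import Mathlib.NumberTheory.Padics.Hensel
import Mathlib.NumberTheory.Padics.RingHoms
import Mathlib.Topology.Order.IntermediateValue
import Mathlib.RingTheory.MvPolynomial.Homogeneous
import Mathlib.Tactic.FunProp

/-!
# The cubic surface is smooth and has points everywhere locally

If all partial derivatives vanish the adjugate of `x + y θ + z θ²` is a multiple of `5 - 5 θ + θ²`,
so `(x, y, z)` is one of `(3, -4, 1)`, and then `107 = 0`. With the theorem of Chevalley and Warning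
and Hensel's lemma this gives points over every `ℚ_p`.
-/

set_option autoImplicit false
set_option linter.style.haveILetI false

noncomputable section

namespace FA.SurfaceObstructions

section Smooth

variable {R : Type*} [CommRing R]

/-- The derivative with respect to `t`. -/
def cubicDt (t x : R) : R := 3 * t ^ 2 + 6 * t * x + 2 * x ^ 2

/-- The derivative with respect to `x`. -/
def cubicDx (t x y z : R) : R :=
  3 * t ^ 2 + 4 * t * x -
    (3 * x ^ 2 + 14 * x * y + 42 * x * z + 14 * y ^ 2 + 77 * y * z + 98 * z ^ 2)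

/-- The derivative with respect to `y`, up to sign. -/
def cubicDy (x y z : R) : R :=
  7 * x ^ 2 + 28 * x * y + 77 * x * z + 21 * y ^ 2 + 98 * y * z + 98 * z ^ 2

/-- The derivative with respect to `z`, up to sign. -/
def cubicDz (x y z : R) : R :=
  21 * x ^ 2 + 77 * x * y + 196 * x * z + 49 * y ^ 2 + 196 * y * z + 147 * z ^ 2

/-- **Smoothness**: a zero at which all derivatives vanish is zero, if `2, 7, 107` are invertible. -/
theorem cubic_smooth {F : Type*} [Field F] (h2 : (2 : F) ≠ 0) (h7 : (7 : F) ≠ 0)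
    (h107 : (107 : F) ≠ 0) {t x y z : F} (h : OnCubic t x y z) (et : cubicDt t x = 0)
    (ex : cubicDx t x y z = 0) (ey : cubicDy x y z = 0) (ez : cubicDz x y z = 0) :
    t = 0 ∧ x = 0 ∧ y = 0 ∧ z = 0 := by
  simp only [OnCubic, cubicNorm] at h
  simp only [cubicDt] at et
  simp only [cubicDx] at ex
  simp only [cubicDy] at ey
  simp only [cubicDz] at ez
  set A := x ^ 2 + 7 * x * y + 21 * x * z + 14 * y ^ 2 + 91 * y * z + 147 * z ^ 2 with hA
  set B := -(x * y) - 7 * y ^ 2 - 49 * y * z - 91 * z ^ 2 with hB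
  set C := -(x * z) + y ^ 2 + 7 * y * z + 14 * z ^ 2 with hC
  set G := 3 * t ^ 2 + 4 * t * x with hG
  have h49 : (49 : F) ≠ 0 := by
    rw [show (49 : F) = 7 * 7 by norm_num]; exact mul_ne_zero h7 h7
  -- the adjugate is `G (5 - 5 θ + θ²)`
  have dA : A = 5 * G := by
    refine mul_left_cancel₀ h49 ?_
    rw [hA, hG]
    linear_combination -245 * ex - 245 * ey + 49 * ez
  have dB : B = -5 * G := by
    refine mul_left_cancel₀ h49 ?_
    rw [hB, hG]
    linear_combination 245 * ex + (3 * 245 - 21 * 21) * ey - (3 * 70 - 7 * 21) * ez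
  have dC : C = G := by
    refine mul_left_cancel₀ h49 ?_
    rw [hC, hG]
    linear_combination -49 * ex - (3 * 70 - 7 * 21) * ey + (3 * 21 - 7 * 7) * ez
  -- times `x + y θ + z θ²` it is the norm
  have p₀ : A * x + B * (7 * z) + C * (7 * (y + 7 * z)) = t * (t + x) * (t + 2 * x) := by
    rw [hA, hB, hC]; linear_combination -h
  have p₁ : A * y + B * (x - 14 * z) + C * (7 * z - 14 * (y + 7 * z)) = 0 := by
    rw [hA, hB, hC]; ring
  have p₂ : A * z + B * (y + 7 * z) + C * (x - 14 * z + 7 * (y + 7 * z)) = 0 := by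
    rw [hA, hB, hC]; ring
  rw [dA, dB, dC] at p₀ p₁ p₂
  by_cases hG0 : G = 0
  · rw [hG0] at p₀ dB dC
    have hG' : t * (t + x) * (t + 2 * x) = 0 := by linear_combination -p₀
    have hx : x = 0 := by
      rcases mul_eq_zero.1 hG' with e | e
      · rcases mul_eq_zero.1 e with e | e
        · have : 2 * x ^ 2 = 0 := by subst e; linear_combination et
          exact (pow_eq_zero_iff two_ne_zero).1 ((mul_eq_zero.1 this).resolve_left h2)
        · obtain rfl : t = -x := eq_neg_of_add_eq_zero_left e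
          exact (pow_eq_zero_iff two_ne_zero).1 (by linear_combination -et)
      · obtain rfl : t = -(2 * x) := eq_neg_of_add_eq_zero_left e
        have : 2 * x ^ 2 = 0 := by linear_combination et
        exact (pow_eq_zero_iff two_ne_zero).1 ((mul_eq_zero.1 this).resolve_left h2)
    subst hx
    have ht : t = 0 := (pow_eq_zero_iff three_ne_zero).1 (by linear_combination hG')
    subst ht
    have hz : z = 0 := by
      refine (pow_eq_zero_iff two_ne_zero).1 ((mul_eq_zero.1 ?_).resolve_left h7)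
      rw [hB] at dB; rw [hC] at dC
      linear_combination 7 * dC + dB
    subst hz
    have hy : y = 0 := by
      refine (pow_eq_zero_iff two_ne_zero).1 ?_
      rw [hC] at dC
      linear_combination dC
    exact ⟨rfl, rfl, hy, rfl⟩
  -- now `(x, y, z) = (3, -4, 1) z`
  have q₁ : -5 * x - 9 * y - 21 * z = 0 :=
    (mul_eq_zero.1 (show G * (-5 * x - 9 * y - 21 * z) = 0 by linear_combination p₁)).resolve_left hG0
  have q₂ : x + 2 * y + 5 * z = 0 :=
    (mul_eq_zero.1 (show G * (x + 2 * y + 5 * z) = 0 by linear_combination p₂)).resolve_left hG0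
  obtain rfl : y = -4 * z := by linear_combination q₁ + 5 * q₂
  obtain rfl : x = 3 * z := by linear_combination q₂
  exfalso
  have hz : z ≠ 0 := fun e => hG0 (by subst e; rw [hG]; linear_combination et)
  have hd : z * (6 * t + 17 * z) = 0 := by linear_combination et - ex
  have h6 : 6 * t + 17 * z = 0 := (mul_eq_zero.1 hd).resolve_left hz
  have : 107 * z ^ 2 = 0 := by linear_combination (6 * t + 7 * z) * h6 - 12 * ex
  exact hz ((pow_eq_zero_iff two_ne_zero).1 ((mul_eq_zero.1 this).resolve_left h107))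

end Smooth

section Padic

open Polynomial

variable {p : ℕ} [Fact p.Prime]

theorem toZMod_eq_zero_iff_norm {z : ℤ_[p]} : PadicInt.toZMod z = 0 ↔ ‖z‖ < 1 := by
  rw [← RingHom.mem_ker, PadicInt.ker_toZMod, PadicInt.maximalIdeal_eq_span_p,
    Ideal.mem_span_singleton, PadicInt.norm_lt_one_iff_dvd]

/-- A simple root modulo `p` of a cubic lifts. -/
theorem exists_cubic_root (a b c d : ℤ_[p]) (r : ZMod p)
    (h : PadicInt.toZMod a * r ^ 3 + PadicInt.toZMod b * r ^ 2 + PadicInt.toZMod c * r +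
      PadicInt.toZMod d = 0)
    (h' : 3 * PadicInt.toZMod a * r ^ 2 + 2 * PadicInt.toZMod b * r + PadicInt.toZMod c ≠ 0) :
    ∃ s : ℤ_[p], a * s ^ 3 + b * s ^ 2 + c * s + d = 0 ∧ PadicInt.toZMod s = r := by
  set s₀ : ℤ_[p] := (r.val : ℤ_[p])
  have hs₀ : PadicInt.toZMod s₀ = r := by simp [s₀]
  set F : ℤ_[p][X] := Polynomial.C a * Polynomial.X ^ 3 + Polynomial.C b * Polynomial.X ^ 2 +
    Polynomial.C c * Polynomial.X + Polynomial.C d with hF
  have e : ∀ s, F.aeval s = a * s ^ 3 + b * s ^ 2 + c * s + d := fun s => by simp [hF]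
  have e' : F.derivative.aeval s₀ = 3 * a * s₀ ^ 2 + 2 * b * s₀ + c := by
    simp [hF, derivative_pow]; ring
  have h1 : ‖F.derivative.aeval s₀‖ = 1 :=
    le_antisymm (PadicInt.norm_le_one _) (not_lt.1 fun hl => h' (by
      have := toZMod_eq_zero_iff_norm.2 hl
      rw [e'] at this
      simpa [hs₀, map_ofNat] using this))
  obtain ⟨s, hs, hclose, -⟩ := hensels_lemma (F := F) (a := s₀) (by
    rw [h1, one_pow]
    refine toZMod_eq_zero_iff_norm.1 ?_
    rw [e]
    simpa [hs₀] using h)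
  rw [h1] at hclose
  refine ⟨s, (e s).symm.trans hs, ?_⟩
  rw [← hs₀, ← sub_eq_zero, ← map_sub, toZMod_eq_zero_iff_norm]
  exact hclose

/-- **A smooth point modulo `p` lifts.** -/
theorem exists_padic_point {t x y z : ZMod p} (h : OnCubic t x y z)
    (hne : t ≠ 0 ∨ x ≠ 0 ∨ y ≠ 0 ∨ z ≠ 0)
    (hd : cubicDt t x ≠ 0 ∨ cubicDx t x y z ≠ 0 ∨ cubicDy x y z ≠ 0 ∨ cubicDz x y z ≠ 0) :
    ∃ T X Y Z : ℚ_[p], OnCubic T X Y Z ∧ (T ≠ 0 ∨ X ≠ 0 ∨ Y ≠ 0 ∨ Z ≠ 0) := by
  obtain ⟨T, X, Y, Z, hP, hT, hX, hY, hZ⟩ : ∃ T X Y Z : ℤ_[p], OnCubic T X Y Z ∧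
      PadicInt.toZMod T = t ∧ PadicInt.toZMod X = x ∧ PadicInt.toZMod Y = y ∧
      PadicInt.toZMod Z = z := by
    set a : ℤ_[p] := (t.val : ℤ_[p])
    set b : ℤ_[p] := (x.val : ℤ_[p])
    set c : ℤ_[p] := (y.val : ℤ_[p])
    set d : ℤ_[p] := (z.val : ℤ_[p])
    have ha : PadicInt.toZMod a = t := by simp [a]
    have hb : PadicInt.toZMod b = x := by simp [b]
    have hc : PadicInt.toZMod c = y := by simp [c]
    have he : PadicInt.toZMod d = z := by simp [d]
    simp only [OnCubic, cubicNorm] at h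
    rcases hd with hd | hd | hd | hd
    · obtain ⟨s, hs, hr⟩ := exists_cubic_root 1 (3 * b) (2 * b ^ 2) (-cubicNorm b c d) t
        (by simp [cubicNorm, hb, hc, he, map_ofNat]; linear_combination h)
        (fun e => hd (by simp [hb, map_ofNat] at e; simp [cubicDt]; linear_combination e))
      exact ⟨s, b, c, d, by simp only [OnCubic]; linear_combination hs, hr, hb, hc, he⟩
    · obtain ⟨s, hs, hr⟩ := exists_cubic_root (-1) (2 * a - 7 * c - 21 * d)
        (3 * a ^ 2 - 14 * c ^ 2 - 77 * c * d - 98 * d ^ 2)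
        (a ^ 3 - 7 * c ^ 3 - 49 * c ^ 2 * d - 98 * c * d ^ 2 - 49 * d ^ 3) x
        (by simp [ha, hc, he, map_ofNat]; linear_combination h)
        (fun e => hd (by simp [ha, hc, he, map_ofNat] at e; simp [cubicDx]; linear_combination e))
      exact ⟨a, s, c, d, by simp only [OnCubic, cubicNorm]; linear_combination hs, ha, hr, hc, he⟩
    · obtain ⟨s, hs, hr⟩ := exists_cubic_root (-7) (-(14 * b + 49 * d))
        (-(7 * b ^ 2 + 77 * b * d + 98 * d ^ 2))
        (a * (a + b) * (a + 2 * b) - b ^ 3 - 21 * b ^ 2 * d - 98 * b * d ^ 2 - 49 * d ^ 3) y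
        (by simp [ha, hb, he, map_ofNat]; linear_combination h)
        (fun e => hd (by simp [hb, he, map_ofNat] at e; simp [cubicDy]; linear_combination -e))
      exact ⟨a, b, s, d, by simp only [OnCubic, cubicNorm]; linear_combination hs, ha, hb, hr, he⟩
    · obtain ⟨s, hs, hr⟩ := exists_cubic_root (-49) (-(98 * b + 98 * c))
        (-(21 * b ^ 2 + 77 * b * c + 49 * c ^ 2 + 0))
        (a * (a + b) * (a + 2 * b) - b ^ 3 - 7 * b ^ 2 * c - 14 * b * c ^ 2 - 7 * c ^ 3) z
        (by simp [ha, hb, hc, map_ofNat]; linear_combination h)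
        (fun e => hd (by simp [hb, hc, map_ofNat] at e; simp [cubicDz]; linear_combination -e))
      exact ⟨a, b, c, s, by simp only [OnCubic, cubicNorm]; linear_combination hs, ha, hb, hc, hr⟩
  refine ⟨T, X, Y, Z, ?_, ?_⟩
  · have := congrArg (PadicInt.Coe.ringHom (p := p)) hP
    rw [map_cubicNorm] at this
    simp only [map_mul, map_add, map_ofNat] at this
    exact this
  · by_contra hall
    simp only [not_or, not_not, PadicInt.coe_eq_zero] at hall
    obtain ⟨rfl, rfl, rfl, rfl⟩ := hall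
    simp only [map_zero] at hT hX hY hZ
    simp [← hT, ← hX, ← hY, ← hZ] at hne

theorem point_mod_two : OnCubic (1 : ZMod 2) 0 0 1 ∧ cubicDt (1 : ZMod 2) 0 ≠ 0 ∧ (1 : ZMod 2) ≠ 0 := by
  simp only [OnCubic, cubicNorm, cubicDt]; decide

theorem point_mod_seven : OnCubic (4 : ZMod 7) 1 0 0 ∧ cubicDt (4 : ZMod 7) 1 ≠ 0 ∧ (4 : ZMod 7) ≠ 0 := by
  simp only [OnCubic, cubicNorm, cubicDt]; decide

theorem point_mod_107 : OnCubic (33 : ZMod 107) 1 0 0 ∧ cubicDt (33 : ZMod 107) 1 ≠ 0 ∧ (33 : ZMod 107) ≠ 0 := by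
  simp only [OnCubic, cubicNorm, cubicDt]; decide

open MvPolynomial in
/-- A nonzero zero modulo `p`, by Chevalley and Warning. -/
theorem exists_mod_point : ∃ t x y z : ZMod p, OnCubic t x y z ∧
    (t ≠ 0 ∨ x ≠ 0 ∨ y ≠ 0 ∨ z ≠ 0) := by
  classical
  set f : MvPolynomial (Fin 4) (ZMod p) :=
    MvPolynomial.X 0 * (MvPolynomial.X 0 + MvPolynomial.X 1) *
        (MvPolynomial.X 0 + 2 * MvPolynomial.X 1) -
      cubicNorm (MvPolynomial.X 1) (MvPolynomial.X 2) (MvPolynomial.X 3) with hf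
  have heval : ∀ v : Fin 4 → ZMod p, MvPolynomial.eval v f =
      v 0 * (v 0 + v 1) * (v 0 + 2 * v 1) - cubicNorm (v 1) (v 2) (v 3) := fun v => by
    rw [hf, map_sub, map_cubicNorm]
    simp
  have hX : ∀ i : Fin 4, (MvPolynomial.X i : MvPolynomial (Fin 4) (ZMod p)).IsHomogeneous 1 :=
    fun i => isHomogeneous_X _ i
  have hdeg : f.IsHomogeneous 3 := by
    have hn : ∀ n : ℕ, (n : MvPolynomial (Fin 4) (ZMod p)).IsHomogeneous 0 := fun n => by
      rw [← map_natCast (MvPolynomial.C : ZMod p →+* MvPolynomial (Fin 4) (ZMod p))]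
      exact isHomogeneous_C _ _
    have h3 : ∀ i j k : Fin 4, (MvPolynomial.X i * MvPolynomial.X j * MvPolynomial.X k :
        MvPolynomial (Fin 4) (ZMod p)).IsHomogeneous 3 := fun i j k =>
      ((hX i).mul (hX j)).mul (hX k)
    have h4 : ∀ (n : ℕ) [n.AtLeastTwo] (i j k : Fin 4),
        ((OfNat.ofNat n : MvPolynomial (Fin 4) (ZMod p)) * MvPolynomial.X i * MvPolynomial.X j *
          MvPolynomial.X k).IsHomogeneous 3 := fun n _ i j k => by
      have h0 := hn (OfNat.ofNat n)
      rw [Nat.cast_ofNat] at h0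
      exact ((h0.mul (hX i)).mul (hX j)).mul (hX k)
    rw [hf, cubicNorm, show (MvPolynomial.X 0 * (MvPolynomial.X 0 + MvPolynomial.X 1) *
        (MvPolynomial.X 0 + 2 * MvPolynomial.X 1) : MvPolynomial (Fin 4) (ZMod p)) =
      MvPolynomial.X 0 ^ 3 + 3 * MvPolynomial.X 0 ^ 2 * MvPolynomial.X 1 +
        2 * MvPolynomial.X 0 * MvPolynomial.X 1 ^ 2 by ring]
    simp only [pow_succ, pow_zero, one_mul, ← mul_assoc]
    refine IsHomogeneous.sub ?_ ?_
    all_goals repeat' refine IsHomogeneous.add ?_ ?_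
    all_goals first | with_reducible exact h4 _ _ _ _ | with_reducible exact h3 _ _ _
  have hcard := char_dvd_card_solutions (p := p) (f := f)
    (lt_of_le_of_lt hdeg.totalDegree_le (by simp))
  have hzero : MvPolynomial.eval (0 : Fin 4 → ZMod p) f = 0 := by
    rw [heval]; simp [cubicNorm]
  have h1 : 1 < Fintype.card {v : Fin 4 → ZMod p // MvPolynomial.eval v f = 0} :=
    lt_of_lt_of_le (Fact.out : p.Prime).one_lt
      (Nat.le_of_dvd (Fintype.card_pos_iff.2 ⟨⟨0, hzero⟩⟩) hcard)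
  obtain ⟨⟨v, hv⟩, hv0⟩ := Fintype.exists_ne_of_one_lt_card h1 ⟨0, hzero⟩
  refine ⟨v 0, v 1, v 2, v 3, sub_eq_zero.1 ((heval v).symm.trans hv), ?_⟩
  by_contra hall
  simp only [not_or, not_not] at hall
  refine hv0 (Subtype.ext (funext fun i => ?_))
  fin_cases i
  exacts [hall.1, hall.2.1, hall.2.2.1, hall.2.2.2]

/-- **Points over every `ℚ_p`.** -/
theorem cubic_padic : ∃ t x y z : ℚ_[p], OnCubic t x y z ∧ (t ≠ 0 ∨ x ≠ 0 ∨ y ≠ 0 ∨ z ≠ 0) := by
  rcases eq_or_ne p 2 with rfl | h2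
  · exact exists_padic_point point_mod_two.1 (Or.inl point_mod_two.2.2)
      (Or.inl point_mod_two.2.1)
  rcases eq_or_ne p 7 with rfl | h7
  · exact exists_padic_point point_mod_seven.1 (Or.inl point_mod_seven.2.2)
      (Or.inl point_mod_seven.2.1)
  rcases eq_or_ne p 107 with rfl | h107
  · exact exists_padic_point point_mod_107.1 (Or.inl point_mod_107.2.2)
      (Or.inl point_mod_107.2.1)
  have hne : ∀ n : ℕ, n.Prime → p ≠ n → (n : ZMod p) ≠ 0 := fun n hn hpn e => by
    rw [ZMod.natCast_eq_zero_iff] at e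
    exact hpn ((Nat.prime_dvd_prime_iff_eq Fact.out hn).1 e)
  obtain ⟨t, x, y, z, h, h0⟩ := exists_mod_point (p := p)
  refine exists_padic_point h h0 ?_
  by_contra hd
  simp only [not_or, not_not] at hd
  have := cubic_smooth (by exact_mod_cast hne 2 Nat.prime_two h2)
    (by exact_mod_cast hne 7 (by norm_num) h7) (by exact_mod_cast hne 107 (by norm_num) h107)
    h hd.1 hd.2.1 hd.2.2.1 hd.2.2.2
  simp [this] at h0

end Padic

/-- A real point. -/
theorem cubic_real : ∃ t : ℝ, OnCubic t 1 0 0 := by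
  obtain ⟨t, -, ht⟩ := intermediate_value_Icc (show (0 : ℝ) ≤ 1 from zero_le_one)
    (f := fun t => t * (t + 1) * (t + 2)) (by fun_prop)
    (show (1 : ℝ) ∈ Set.Icc _ _ from ⟨by norm_num, by norm_num⟩)
  refine ⟨t, ?_⟩
  simp only [OnCubic, cubicNorm]
  linear_combination ht

end FA.SurfaceObstructions
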