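import Mathlib.NumberTheory.SumTwoSquares
import Mathlib.NumberTheory.Padics.PadicVal.Basic
import Mathlib.Data.ZMod.Basic
import Mathlib.Data.Rat.Lemmas
import Mathlib.Algebra.Order.Field.Rat
import Mathlib.Tactic.LinearCombination

/-!
# Iskovskikh's surfaces have no rational point

The factors `A = c n² - m²` and `B = m² - (c - 1) n²` are coprime and add up to `n²`. If their
product is a sum of two squares both are, but one is `3` modulo `4` when `c` is.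
-/

set_option autoImplicit false
set_option linter.style.haveILetI false

namespace FA.SurfaceObstructions

/-- Coprime numbers whose product is, up to a square, a sum of two squares are sums of two
squares. -/
theorem exists_two_squares_of_mul {a b e r s : ℕ} (hab : Nat.Coprime a b) (ha : a ≠ 0) (hb : b ≠ 0)
    (he : e ≠ 0) (h : a * b * e ^ 2 = r ^ 2 + s ^ 2) : ∃ x y, a = x ^ 2 + y ^ 2 := by
  rw [Nat.eq_sq_add_sq_iff]
  intro q hq h3
  haveI : Fact q.Prime := ⟨Nat.prime_of_mem_primeFactors hq⟩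
  have hqa : q ∣ a := Nat.dvd_of_mem_primeFactors hq
  have hqb : ¬q ∣ b := fun hqb => (Fact.out : q.Prime).ne_one
    (Nat.eq_one_of_dvd_coprimes hab hqa hqb)
  have hne : a * b * e ^ 2 ≠ 0 := mul_ne_zero (mul_ne_zero ha hb) (pow_ne_zero 2 he)
  have heven := Nat.eq_sq_add_sq_iff.1 ⟨r, s, h⟩ q
    (Nat.mem_primeFactors.2 ⟨Fact.out, hqa.trans ((dvd_mul_right a b).trans (dvd_mul_right _ _)),
      hne⟩) h3
  rw [padicValNat.mul (mul_ne_zero ha hb) (pow_ne_zero 2 he), padicValNat.mul ha hb,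
    padicValNat.eq_zero_of_not_dvd hqb, padicValNat.pow, add_zero] at heven
  exact (Nat.even_add.1 heven).2 (even_two_mul _)

theorem mod_four_table : ∀ a b m n : ZMod 4, 2 * m ≠ 0 ∨ 2 * n ≠ 0 →
    a = 3 * n ^ 2 - m ^ 2 → b = m ^ 2 - 2 * n ^ 2 → a = 3 ∨ b = 3 := by
  decide

theorem sq_add_sq_ne_three : ∀ x y : ZMod 4, x ^ 2 + y ^ 2 ≠ 3 := by decide

/-- The coprime case. -/
theorem iskovskikh_coprime {c m n : ℤ} (hc : c % 4 = 3) (hmn : IsCoprime m n) (y z : ℚ) :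
    y ^ 2 + z ^ 2 ≠ ((c * n ^ 2 - m ^ 2) * (m ^ 2 - (c - 1) * n ^ 2) : ℤ) := by
  intro h
  set A := c * n ^ 2 - m ^ 2 with hA
  set B := m ^ 2 - (c - 1) * n ^ 2 with hB
  have hc4 : (c : ZMod 4) = 3 := by
    rw [← ZMod.intCast_mod c 4, show c % ((4 : ℕ) : ℤ) = 3 from hc]; rfl
  have hpar : 2 * (m : ZMod 4) ≠ 0 ∨ 2 * (n : ZMod 4) ≠ 0 := by
    by_contra hno
    obtain ⟨hm, hn⟩ := not_or.1 hno
    rw [not_not] at hm hn
    have h2 : ∀ x : ℤ, 2 * (x : ZMod 4) = 0 → (2 : ℤ) ∣ x := fun x hx => by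
      have : ((2 * x : ℤ) : ZMod 4) = 0 := by push_cast; exact hx
      rw [ZMod.intCast_zmod_eq_zero_iff_dvd] at this
      omega
    exact absurd (hmn.isUnit_of_dvd' (h2 m hm) (h2 n hn)) (by rw [Int.isUnit_iff]; omega)
  have hA4 : (A : ZMod 4) = 3 * (n : ZMod 4) ^ 2 - (m : ZMod 4) ^ 2 := by
    rw [hA]; push_cast; rw [hc4]
  have hB4 : (B : ZMod 4) = (m : ZMod 4) ^ 2 - 2 * (n : ZMod 4) ^ 2 := by
    rw [hB]; push_cast; rw [hc4]; ring
  have hcases := mod_four_table _ _ _ _ hpar hA4 hB4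
  have hsum : A + B = n ^ 2 := by rw [hA, hB]; ring
  have hcop : IsCoprime A B := by
    have hAn : IsCoprime A (n ^ 2) := by
      have h1 : IsCoprime (-m ^ 2) (n ^ 2) := (hmn.pow (m := 2) (n := 2)).neg_left
      have h2 := h1.add_mul_right_left c
      rwa [show -m ^ 2 + c * n ^ 2 = A by rw [hA]; ring] at h2
    obtain ⟨u, v, huv⟩ := hAn
    exact ⟨u + v, v, by rw [← huv, ← hsum]; ring⟩
  have hne : ∀ P Q : ℤ, IsCoprime P Q → P = 0 → (P : ZMod 4) = 3 ∨ (Q : ZMod 4) = 3 → Q = -1 := by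
    intro P Q hPQ hP h3
    subst hP
    rw [isCoprime_zero_left, Int.isUnit_iff] at hPQ
    rcases hPQ with rfl | rfl
    · exfalso; revert h3; decide
    · rfl
  have hA0 : A ≠ 0 := fun e => by
    have := hne A B hcop e hcases
    nlinarith [sq_nonneg n]
  have hB0 : B ≠ 0 := fun e => by
    have := hne B A hcop.symm e hcases.symm
    nlinarith [sq_nonneg n]
  have hprod : 0 ≤ A * B := by
    exact_mod_cast (by rw [← h]; positivity : (0 : ℚ) ≤ ((A * B : ℤ) : ℚ))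
  have hpos : 0 < A ∧ 0 < B := by
    rcases mul_nonneg_iff.1 hprod with ⟨a, b⟩ | ⟨a, b⟩
    · exact ⟨lt_of_le_of_ne a (Ne.symm hA0), lt_of_le_of_ne b (Ne.symm hB0)⟩
    · exact absurd (sq_nonneg n) (by omega)
  obtain ⟨a, ha⟩ := Int.eq_ofNat_of_zero_le hpos.1.le
  obtain ⟨b, hb⟩ := Int.eq_ofNat_of_zero_le hpos.2.le
  rw [ha, hb] at h hpos hcop
  have hnat : a * b * (y.den * z.den) ^ 2 =
      (y.num.natAbs * z.den) ^ 2 + (z.num.natAbs * y.den) ^ 2 := by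
    have e : (((a * b * (y.den * z.den) ^ 2 : ℕ) : ℤ) : ℚ) =
        (((y.num.natAbs * z.den) ^ 2 + (z.num.natAbs * y.den) ^ 2 : ℕ) : ℤ) := by
      have hy := Rat.mul_den_eq_num y
      have hz := Rat.mul_den_eq_num z
      push_cast [Nat.cast_natAbs] at h ⊢
      rw [mul_pow (|(y.num : ℚ)|), mul_pow (|(z.num : ℚ)|), sq_abs, sq_abs, ← hy, ← hz, ← h]
      ring
    exact_mod_cast e
  have he : y.den * z.den ≠ 0 := mul_ne_zero y.den_nz z.den_nz
  have hab : Nat.Coprime a b := Nat.isCoprime_iff_coprime.1 hcop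
  have ha0 : a ≠ 0 := by omega
  have hb0 : b ≠ 0 := by omega
  obtain ⟨p, q, hpq⟩ := exists_two_squares_of_mul hab ha0 hb0 he hnat
  obtain ⟨p', q', hpq'⟩ := exists_two_squares_of_mul hab.symm hb0 ha0 he
    (by rw [mul_comm b a]; exact hnat)
  rw [ha, hb, Int.cast_natCast, Int.cast_natCast, hpq, hpq'] at hcases
  push_cast at hcases
  rcases hcases with e | e
  exacts [sq_add_sq_ne_three _ _ e, sq_add_sq_ne_three _ _ e]

/-- **No rational point**, in homogeneous form. -/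
theorem iskovskikh_no_point {c m n : ℤ} (hc : c % 4 = 3) (hmn : m ≠ 0 ∨ n ≠ 0) (y z : ℚ) :
    y ^ 2 + z ^ 2 ≠ ((c * n ^ 2 - m ^ 2) * (m ^ 2 - (c - 1) * n ^ 2) : ℤ) := by
  intro h
  obtain ⟨m', n', hm, hn, hcop⟩ :
      ∃ m' n' : ℤ, m = (Int.gcd m n : ℤ) * m' ∧ n = (Int.gcd m n : ℤ) * n' ∧ IsCoprime m' n' := by
    have hg : 0 < Int.gcd m n := Int.gcd_pos_iff.2 hmn
    refine ⟨m / Int.gcd m n, n / Int.gcd m n, (Int.mul_ediv_cancel' (Int.gcd_dvd_left _ _)).symm,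
      (Int.mul_ediv_cancel' (Int.gcd_dvd_right _ _)).symm, ?_⟩
    rw [Int.isCoprime_iff_gcd_eq_one]
    exact Int.gcd_div_gcd_div_gcd hg
  have hg0 : ((Int.gcd m n : ℤ) : ℚ) ≠ 0 := by
    exact_mod_cast (Int.gcd_pos_iff.2 hmn).ne'
  set g : ℤ := (Int.gcd m n : ℤ)
  refine iskovskikh_coprime hc hcop (y / (g : ℚ) ^ 2) (z / (g : ℚ) ^ 2) ?_
  rw [hm, hn] at h
  push_cast at h ⊢
  field_simp
  linear_combination h

/-- No rational point on the affine surface. -/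
theorem iskovskikh_no_point_affine {c : ℤ} (hc : c % 4 = 3) (x y z : ℚ) :
    y ^ 2 + z ^ 2 ≠ ((c : ℚ) - x ^ 2) * (x ^ 2 - c + 1) := by
  intro h
  have hd : (x.den : ℚ) ≠ 0 := Nat.cast_ne_zero.2 x.den_nz
  refine iskovskikh_no_point hc (m := x.num) (n := (x.den : ℤ))
    (Or.inr (Int.natCast_ne_zero.2 x.den_nz)) (y * (x.den : ℚ) ^ 2) (z * (x.den : ℚ) ^ 2) ?_
  push_cast
  rw [← Rat.mul_den_eq_num x]
  linear_combination (x.den : ℚ) ^ 4 * h

end FA.SurfaceObstructions
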